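import Mathlib
import Fermat.Agent.S34.Euler.GenusIdentity
import Fermat.Agent.S34.Euler.RedPair

/-!
# PROJECT V (S36), slice V-EulerExact, abstract part: the UPPER bound for the number of nodes

PROJECT U (`S34/Euler/GenusIdentity.genus_le`, instantiated at `X₀(M q)` in
`S34/EulerNodesFinalX0.exists_nodes_final`) proves only the inequality
`g + 1 ≤ g₁ + g₂ + #nodes`.  The count of PROJECT V (all nodes are thin) needs the other half.

* `card_add_genus_le` : if the reduction `W d` of the lattice `L(d D) ∩ O₁ ∩ O₂` lies in the space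
  `V d` of sections glued at the nodes with poles bounded by `d E₁`, `d E₂` (pole control and
  gluing), and has full dimension `ℓ(d D) ≤ dim W d` (orthonormal bases), then
  `#nodes + g₁ + g₂ ≤ g + 1`.
* `red_mem_rr_of_pc` : QUANTITATIVE pole control `red f ∈ L(d E)` for `f ∈ L(d D) ∩ O ∩ O₂` from
  the QUALITATIVE pole control of PROJECT U (a function of `O ∩ O₂` none of whose poles
  specialises to `Q` has a reduction regular at `Q`), by twisting with a power of a unit `y` whose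
  poles carry `D`.
-/

set_option autoImplicit false
set_option linter.unusedSectionVars false
set_option linter.style.haveILetI false

noncomputable section

namespace Fermat.Agent.S36.EulerExact.Count

open AlgebraicCurve Fermat.Agent.S18.NonSpecial Fermat.Agent.S34.Euler.Value
  Fermat.Agent.S34.Euler.Glued Fermat.Agent.S37.Deuring.Core

variable {L : Type*} [Field L] {FL : Type*} [Field FL] [Algebra L FL]
variable {k : Type*} [Field k]

/-- `ord (f ^ n) = n ord f` -/
theorem ord_npow {K : Type*} [Field K] {F : Type*} [Field F] [Algebra K F] (v : Place K F) (f : F)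
    (n : ℕ) : v.ord (f ^ n) = n * v.ord f := by
  have := v.ord_zpow f (n : ℤ)
  rwa [zpow_natCast] at this

section Count

variable {κ₁ : Type*} [Field κ₁] [Algebra k κ₁] {κ₂ : Type*} [Field κ₂] [Algebra k κ₂]
variable {ι : Type*} [Fintype ι]

/-- **The upper bound for the number of nodes**: pole control + gluing (`hWV`) and full-rank
reduction (`hOB`) give `#nodes + g₁ + g₂ ≤ g + 1`. -/
theorem card_add_genus_le {g g₁ g₂ : ℕ} (HL : RiemannHyp L FL g) (H₁ : RiemannHyp k κ₁ g₁)
    (H₂ : RiemannHyp k κ₂ g₂) (s₁ : ι → Place k κ₁) (s₂ : ι → Place k κ₂)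
    (hinj : Function.Injective s₁) {E₁ : Divisor k κ₁} {E₂ : Divisor k κ₂}
    (hE₁ : ∀ i, E₁ (s₁ i) = 0) (hE₂ : ∀ i, E₂ (s₂ i) = 0)
    (hpos₁ : 0 < Divisor.degree E₁) (hpos₂ : 0 < Divisor.degree E₂)
    (D : Divisor L FL) (hdeg : Divisor.degree D = Divisor.degree E₁ + Divisor.degree E₂)
    (W : ℕ → Submodule k (κ₁ × κ₂))
    (hWV : ∀ d, W d ≤ V s₁ s₂ E₁ E₂ d)
    (hOB : ∀ d, ell (d • D) ≤ Module.finrank k (W d)) :
    (Fintype.card ι : ℤ) + g₁ + g₂ ≤ g + 1 := by
  classical
  obtain ⟨d₀, hd₀⟩ := Fermat.Agent.S34.Euler.GenusIdentity.exists_finrank_V H₁ H₂ s₁ s₂ hinj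
    hE₁ hE₂ hpos₁ hpos₂
  obtain ⟨c, hc⟩ := HL.riemann_eq
  have hposD : 0 < Divisor.degree D := by rw [hdeg]; linarith
  set d : ℕ := max d₀ c.toNat with hd
  have hdd₀ : d₀ ≤ d := le_max_left _ _
  have hdc : c ≤ d := (Int.self_le_toNat c).trans (by exact_mod_cast le_max_right _ _)
  have e := hd₀ d hdd₀
  haveI : Module.Finite k (V s₁ s₂ E₁ E₂ d) := by
    haveI := H₁.finite (d • E₁)
    haveI := H₂.finite (d • E₂)
    exact finite_glued s₁ s₂ (d • E₁) (d • E₂)
  have hle : Module.finrank k (W d) ≤ Module.finrank k (V s₁ s₂ E₁ E₂ d) :=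
    Submodule.finrank_mono (hWV d)
  have hL : (ell (d • D) : ℤ) = d * Divisor.degree D + 1 - g := by
    have hdegd : Divisor.degree (d • D) = d * Divisor.degree D := by
      rw [map_nsmul, nsmul_eq_mul]
    rw [hc (d • D) (by rw [hdegd]; nlinarith), hdegd]
  have h2 : (ell (d • D) : ℤ) ≤ Module.finrank k (V s₁ s₂ E₁ E₂ d) := by
    exact_mod_cast (hOB d).trans hle
  rw [e, hL, hdeg] at h2
  linarith

end Count

section PoleControl

variable {A : ValuationSubring L} {π : A →+* k} {κ : Type*} [Field κ] [Algebra k κ]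

/-- **Quantitative pole control from qualitative pole control.**  `G` a Gauss datum, `O₂` a second
valuation ring, `sp` a specialisation map with the qualitative pole control `pc` for the functions
of `G.O ∩ O₂`; `y` a unit of `G.O ∩ O₂` whose poles specialise to poles of `ȳ` and whose zeros
specialise to zeros of `ȳ`; `D ≤ n (y)_∞` and `E = (ȳⁿ)_∞`.  Then the reduction of
`f ∈ L(d D) ∩ G.O ∩ O₂` lies in `L(d E)`. -/
theorem red_mem_rr_of_pc (G : GaussDatum A π FL κ) (O₂ : ValuationSubring FL)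
    (sp : Place L FL → Place k κ)
    (pc : ∀ (Q : Place k κ) (h : FL) (h₁ : h ∈ G.O), h ∈ O₂ →
      (∀ P : Place L FL, P.ord h < 0 → sp P ≠ Q) → 0 ≤ Q.ord (G.red ⟨h, h₁⟩))
    {y : FL} (hy0 : y ≠ 0) (hy₁ : y ∈ G.O) (hyi₁ : y⁻¹ ∈ G.O) (hyi₂ : y⁻¹ ∈ O₂)
    (hpp : ∀ P : Place L FL, P.ord y < 0 → (sp P).ord (G.red ⟨y, hy₁⟩) < 0)
    (hzz : ∀ P : Place L FL, 0 < P.ord y → 0 < (sp P).ord (G.red ⟨y, hy₁⟩))
    {D : Divisor L FL} {n : ℕ}
    (hD : ∀ P : Place L FL, D P ≤ max 0 (-((n : ℤ) * P.ord y)))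
    {E : Divisor k κ} (hE : IsPoleDiv (G.red ⟨y, hy₁⟩ ^ n) E)
    {d : ℕ} {f : FL} (hf : f ∈ riemannRochSpace (d • D)) (hf₁ : f ∈ G.O) (hf₂ : f ∈ O₂) :
    G.red ⟨f, hf₁⟩ ∈ riemannRochSpace (d • E) := by
  classical
  set ybar : κ := G.red ⟨y, hy₁⟩ with hybar
  -- `ȳ ≠ 0`
  have hunit : (⟨y, hy₁⟩ : G.O) * ⟨y⁻¹, hyi₁⟩ = 1 := Subtype.ext (mul_inv_cancel₀ hy0)
  have hybar0 : ybar ≠ 0 := by
    intro h0
    have := congrArg G.red hunit
    rw [map_mul, map_one, ← hybar, h0, zero_mul] at this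
    exact zero_ne_one this
  have hredinv : G.red ⟨y⁻¹, hyi₁⟩ = ybar⁻¹ := by
    have := congrArg G.red hunit
    rw [map_mul, map_one, ← hybar] at this
    exact eq_inv_of_mul_eq_one_right this
  rw [mem_riemannRochSpace_iff]
  intro Q
  by_cases hf0 : G.red ⟨f, hf₁⟩ = 0
  · exact Or.inl hf0
  right
  have hfne : f ≠ 0 := by
    rintro rfl
    exact hf0 (map_zero G.red)
  have hfD := mem_riemannRochSpace_iff.mp hf
  have hEQ : E Q = max 0 (-((n : ℤ) * Q.ord ybar)) := by
    rw [hE Q, ord_npow]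
  rw [Finsupp.smul_apply, nsmul_eq_mul, hEQ]
  by_cases hQ : 0 ≤ Q.ord ybar
  · -- `Q` is not a pole of `ȳ`: the poles of `f` are poles of `y`
    have hreg : 0 ≤ Q.ord (G.red ⟨f, hf₁⟩) := by
      refine pc Q f hf₁ hf₂ fun P hP => ?_
      have h1 := (hfD P).resolve_left hfne
      rw [Finsupp.smul_apply, nsmul_eq_mul] at h1
      have hDP : 0 < D P := by
        by_contra hcon
        push Not at hcon
        have : (d : ℤ) * D P ≤ 0 := mul_nonpos_of_nonneg_of_nonpos (Int.natCast_nonneg d) hcon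
        omega
      have hyP : P.ord y < 0 := by
        by_contra hcon
        push Not at hcon
        have h2 := hD P
        have h3 : (0 : ℤ) ≤ (n : ℤ) * P.ord y := mul_nonneg (Int.natCast_nonneg n) hcon
        rw [max_eq_left (by omega)] at h2
        omega
      intro heq
      have := hpp P hyP
      rw [heq] at this
      omega
    have h3 : (0 : ℤ) ≤ (n : ℤ) * Q.ord ybar := mul_nonneg (Int.natCast_nonneg n) hQ
    rw [max_eq_left (by omega), mul_zero]
    omega
  · -- `Q` is a pole of `ȳ`: twist by `y ^ (- d n)`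
    push Not at hQ
    set m : ℕ := d * n with hm
    set h : FL := (y⁻¹) ^ m * f with hh
    have hh₁ : h ∈ G.O := G.O.mul_mem _ _ (G.O.pow_mem hyi₁ m) hf₁
    have hh₂ : h ∈ O₂ := O₂.mul_mem _ _ (O₂.pow_mem hyi₂ m) hf₂
    have hyim : (y⁻¹) ^ m ≠ 0 := pow_ne_zero _ (inv_ne_zero hy0)
    have hordh : ∀ P : Place L FL, P.ord h = -((m : ℤ) * P.ord y) + P.ord f := by
      intro P
      rw [hh, P.ord_mul hyim hfne, ord_npow, P.ord_inv]
      ring
    have hreg : 0 ≤ Q.ord (G.red ⟨h, hh₁⟩) := by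
      refine pc Q h hh₁ hh₂ fun P hP => ?_
      rw [hordh P] at hP
      have h1 := (hfD P).resolve_left hfne
      rw [Finsupp.smul_apply, nsmul_eq_mul] at h1
      have h2 := hD P
      -- the poles of `h` are zeros of `y`
      have hyP : 0 < P.ord y := by
        by_contra hcon
        push Not at hcon
        have h3 : (n : ℤ) * P.ord y ≤ 0 :=
          mul_nonpos_of_nonneg_of_nonpos (Int.natCast_nonneg n) hcon
        rw [max_eq_right (by omega)] at h2
        have h4 : (d : ℤ) * D P ≤ (d : ℤ) * (-((n : ℤ) * P.ord y)) :=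
          mul_le_mul_of_nonneg_left h2 (Int.natCast_nonneg d)
        have h5 : ((m : ℕ) : ℤ) = (d : ℤ) * (n : ℤ) := by rw [hm]; push_cast; ring
        rw [h5] at hP
        nlinarith
      intro heq
      have := hzz P hyP
      rw [heq] at this
      omega
    have hredh : G.red ⟨h, hh₁⟩ = (ybar⁻¹) ^ m * G.red ⟨f, hf₁⟩ := by
      have : (⟨h, hh₁⟩ : G.O) = (⟨y⁻¹, hyi₁⟩ : G.O) ^ m * ⟨f, hf₁⟩ := Subtype.ext rfl
      rw [this, map_mul, map_pow, hredinv]
    rw [hredh, Q.ord_mul (pow_ne_zero _ (inv_ne_zero hybar0)) hf0,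
      ord_npow, Q.ord_inv] at hreg
    have h3 : (n : ℤ) * Q.ord ybar ≤ 0 :=
      mul_nonpos_of_nonneg_of_nonpos (Int.natCast_nonneg n) hQ.le
    rw [max_eq_right (by omega)]
    have h5 : ((m : ℕ) : ℤ) = (d : ℤ) * (n : ℤ) := by rw [hm]; push_cast; ring
    rw [h5] at hreg
    nlinarith

end PoleControl

end Fermat.Agent.S36.EulerExact.Count
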