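import Mathlib
import Fermat.Agent.S34.EulerClosedX0
import Fermat.Agent.S34.PcgX0
import Fermat.Agent.S34.OrthoPairX0
import Fermat.Agent.S34.Generic.BranchX0
import Fermat.Agent.S36.EulerExact.Count

/-!
# PROJECT V (S36), slice V-EulerExact: THE EXACT NUMBER OF NODES OF `X₀(M q)` MOD `q`

PROJECT U (`S34/EulerClosedX0.exists_nodes_closed`) produces the node set `S` of `X₀(M q)` mod `q`
(`q ∤ M`) with the INEQUALITY `g(M q) + 1 ≤ 2 g(M) + #S` and the chart-0 gluing description.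
Here the other half, for ANY finite set `S` of places off the cusps at which the reductions of the
integral functions with poles at the cusps are glued:

* `card_nodes_le` : `#S + 2 g(M) ≤ g(M q) + 1`;
* `exists_nodes_closed_eq` : the node set of `exists_nodes_closed` with
  `g(M q) + 1 = 2 g(M) + #S`.

Proof: `Count.card_add_genus_le` with (pole control) `Count.red_mem_rr_of_pc` fed with the
qualitative pole control `PcgX0.pc1_X0` (+ `PcgSwap.pc2_of_swap`) and the twists `y = j`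
(first component), `y = j_q` (second component), using `CuspRegular.ord_jl_ge`
(`q ord j ≤ ord j_q` at the cusps) and `CuspRedX0.pole_to_pole_jgen`, `zero_to_zero_jgen`;
(full rank) `OrthoPairX0.finrank_le`.
-/

set_option autoImplicit false
set_option linter.unusedSectionVars false
set_option linter.style.haveILetI false
set_option synthInstance.maxHeartbeats 400000

noncomputable section

namespace Fermat.Agent.S36.EulerExact.X0

open ModularCurve AlgebraicCurve IsLocalRing
open Fermat.Agent.S24.DegreeAlg (jgen)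
open Fermat.Agent.S18.B.FkBasics (jk)
open Fermat.Agent.S18.NonSpecial Fermat.Agent.S37.Deuring.Core
open Fermat.Agent.S37.Gauss.Datum
open Fermat.Agent.S34.PowerBasisX0 Fermat.Agent.S34.EulerX0
open Fermat.Agent.S34.FrobK Fermat.Agent.S34.Euler.Places Fermat.Agent.S34.Euler.Value
  Fermat.Agent.S34.Euler.RedPair Fermat.Agent.S34.Euler.Chart Fermat.Agent.S34.Euler.FrobSide
  Fermat.Agent.S34.Euler.Glued
open Fermat.Agent.S34.EulerClosedX0
open Fermat.Agent.S34.NodalDefs (Branch SmoothRed)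
open Fermat.Agent.S34.Generic.Compat Fermat.Agent.S34.Generic.RestrAlong
  Fermat.Agent.S34.Generic.SmoothRedOfGeneric Fermat.Agent.S34.Generic.BranchX0
open Fermat.Agent.S34.Generic.FibAlphaX0 Fermat.Agent.S34.Generic.FibBetaX0
open Fermat.Agent.S34.WqGalois
open Fermat.Agent.S34.TwoGaussX0 Fermat.Agent.S34.CuspRedX0

local notation "Kb" => AlgebraicClosure ℚ

attribute [local instance 2000] Fermat.Agent.S34.EulerX0.algResFk

/-- shortcut instances (all propositions) -/
local instance instPDBar (N : ℕ) [NeZero N] :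
    HasPrincipalDivisors Kb ↥(modularFunctionFieldBar N) :=
  Fermat.Agent.S18.A.Instances.hasPrincipalDivisors_bar N

local instance instPDFk (A : ValuationSubring Kb) (N : ℕ) [NeZero N] :
    HasPrincipalDivisors (ResidueField ↥A) ↥(modularFunctionFieldFullC (ResidueField ↥A) N) :=
  Fermat.Agent.S37.ReductionInputs.hasPrincipalDivisors_Fk A N

local instance instACk (A : ValuationSubring Kb) : IsAlgClosed (ResidueField ↥A) :=
  Fermat.Agent.S18.ResidueBasics.isAlgClosed_residueField A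

local instance instInfk (A : ValuationSubring Kb) : Infinite (ResidueField ↥A) :=
  Fermat.Agent.S37.ReductionInputs.infinite_residueField A

local instance instNeZeroMul (M q : ℕ) [NeZero M] [NeZero q] : NeZero (M * q) :=
  ⟨Nat.mul_ne_zero (NeZero.ne M) (NeZero.ne q)⟩

/-! ### a unit of a Gauss ring -/

section Abstract

variable {L : Type*} [Field L] {k : Type*} [Field k] {A : ValuationSubring L} {π : A →+* k}
variable {FL : Type*} [Field FL] [Algebra L FL] {κ : Type*} [Field κ] [Algebra k κ]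

/-- an element of a Gauss ring with nonzero reduction has its inverse in the ring -/
theorem inv_mem_of_red_ne_zero (G : GaussDatum A π FL κ) {y : FL} (hy : y ∈ G.O)
    (h : G.red ⟨y, hy⟩ ≠ 0) : y⁻¹ ∈ G.O := by
  have hu : IsUnit (⟨y, hy⟩ : G.O) := by
    by_contra hcon
    exact h ((G.red_eq_zero_iff _).mpr hcon)
  obtain ⟨u, hu⟩ := hu
  have h1 : ((u⁻¹ : (G.O)ˣ) : G.O) * ⟨y, hy⟩ = 1 := by
    rw [← hu]
    exact u.inv_mul
  have h2 : (((u⁻¹ : (G.O)ˣ) : G.O) : FL) * y = 1 := congrArg Subtype.val h1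
  have h3 : y⁻¹ = (((u⁻¹ : (G.O)ˣ) : G.O) : FL) := (eq_inv_of_mul_eq_one_left h2).symm
  rw [h3]
  exact ((u⁻¹ : (G.O)ˣ) : G.O).2

end Abstract

variable {q : ℕ} [hq : Fact q.Prime] [NeZero q] {M : ℕ} [NeZero M]
variable {A : ValuationSubring Kb} (hA : A.LiesOverPrime q) (hqM : ¬ q ∣ M)
variable [CharP (ResidueField ↥A) q]

/-! ### the first branch as a (trivial) `SmoothRed` -/

/-- the first branch `B1X0` with the empty set of good places -/
def R1triv : SmoothRed A (residue ↥A) ↥(modularFunctionFieldBar (M * q))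
    ↥(modularFunctionFieldFullC (ResidueField ↥A) M) where
  toBranch := B1X0 hA hqM
  r := fun _ => none
  good := ∅
  compat := fun _ _ _ Q hQ => absurd hQ (Set.notMem_empty Q)

/-! ### the pole divisor of `x = j j_q` against the poles of `j`, resp. of `j_q` -/

include hqM in
/-- `D = (j j_q)_∞ ≤ (q + 1) (j)_∞` -/
theorem D_le_alpha (P : Place Kb ↥(modularFunctionFieldBar (M * q))) :
    D hqM P ≤ max 0 (-(((q + 1 : ℕ) : ℤ) * P.ord (jgen (M * q)))) := by
  have h1 : Dj M q P = max 0 (-P.ord (jgen (M * q))) := isPoleDiv_jgen P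
  have h2 : Djl hqM P = max 0 (-P.ord (jl M q)) := isPoleDiv_jl hqM P
  rw [D, Finsupp.add_apply, h1, h2]
  push_cast
  rcases lt_or_ge (P.ord (jgen (M * q))) 0 with h | h
  · have hjE : Fermat.Agent.S34.CuspRegular.jE M q = jgen (M * q) := alpha_jgen
    have h3 := Fermat.Agent.S34.CuspRegular.ord_jl_ge (M := M) (q := q) P
      (by rw [hjE]; exact h)
    rw [hjE] at h3
    have h4 : P.ord (jl M q) < 0 := (ord_jl_neg_iff hqM P).mpr h
    rw [max_eq_right (by omega), max_eq_right (by omega), max_eq_right (by nlinarith)]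
    nlinarith
  · have h4 : 0 ≤ P.ord (jl M q) := not_lt.mp fun h' => (not_lt.mpr h) ((ord_jl_neg_iff hqM P).mp h')
    rw [max_eq_left (by omega), max_eq_left (by omega)]
    exact le_max_of_le_left (by omega)

include hqM in
/-- `D = (j j_q)_∞ ≤ (q + 1) (j_q)_∞` (apply `w_q`) -/
theorem D_le_beta (P : Place Kb ↥(modularFunctionFieldBar (M * q))) :
    D hqM P ≤ max 0 (-(((q + 1 : ℕ) : ℤ) * P.ord (jl M q))) := by
  have h1 : Dj M q P = max 0 (-P.ord (jgen (M * q))) := isPoleDiv_jgen P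
  have h2 : Djl hqM P = max 0 (-P.ord (jl M q)) := isPoleDiv_jl hqM P
  rw [D, Finsupp.add_apply, h1, h2]
  push_cast
  set P' : Place Kb ↥(modularFunctionFieldBar (M * q)) :=
    (SemilinearAut.ofAlgAut (wq M q hq.out hqM))⁻¹ • P with hP'
  have e1 : P.ord (jgen (M * q)) = P'.ord (jl M q) := by
    rw [hP', ← Fermat.Agent.S34.PcgSwap.ord_apply, wq_jl, alpha_jgen]
  have e2 : P.ord (jl M q) = P'.ord (jgen (M * q)) := by
    rw [hP', ← Fermat.Agent.S34.PcgSwap.ord_apply, ← alpha_jgen (M := M) (q := q), wq_alpha_jgen]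
  rcases lt_or_ge (P.ord (jl M q)) 0 with h | h
  · have hjE : Fermat.Agent.S34.CuspRegular.jE M q = jgen (M * q) := alpha_jgen
    have h3 := Fermat.Agent.S34.CuspRegular.ord_jl_ge (M := M) (q := q) P'
      (by rw [hjE, ← e2]; exact h)
    rw [hjE, ← e1, ← e2] at h3
    have h4 : P.ord (jgen (M * q)) < 0 := (ord_jl_neg_iff hqM P).mp h
    rw [max_eq_right (by omega), max_eq_right (by omega), max_eq_right (by nlinarith)]
    nlinarith
  · have h4 : 0 ≤ P.ord (jgen (M * q)) :=
      not_lt.mp fun h' => (not_lt.mpr h) ((ord_jl_neg_iff hqM P).mpr h')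
    rw [max_eq_left (by omega), max_eq_left (by omega)]
    exact le_max_of_le_left (by omega)

/-! ### the two qualitative pole controls, in Gauss-datum form -/

section Main

attribute [local instance] algFE

variable {gM : ℕ}
  (HM : RiemannHyp (ResidueField ↥A) ↥(modularFunctionFieldFullC (ResidueField ↥A) M) gM)

/-- Deuring's hypotheses at level `M` -/
abbrev HX : Hyp (gaussDatum M A hA hqM) gM gM :=
  haveI : PerfectField (ResidueField ↥A) := inferInstance
  Fermat.Agent.S34.EulerNodesFinalX0.hyp_of_riemannHyp hqM hA HM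

/-- the first specialisation map `P ↦ r_M (P ∘ α)` -/
abbrev spA : Place Kb ↥(modularFunctionFieldBar (M * q)) →
    Place (ResidueField ↥A) ↥(modularFunctionFieldFullC (ResidueField ↥A) M) :=
  fun P => placeMap (HX hA hqM HM) (resAlong (heckeAlphaBar Kb M q) (isIntegral_alpha hqM) P)

/-- the second specialisation map `P ↦ r_M (P ∘ β)` -/
abbrev spB : Place Kb ↥(modularFunctionFieldBar (M * q)) →
    Place (ResidueField ↥A) ↥(modularFunctionFieldFullC (ResidueField ↥A) M) :=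
  fun P => placeMap (HX hA hqM HM) (resAlong (heckeBetaBar Kb M q) (isIntegral_beta M q) P)

set_option maxHeartbeats 1600000 in
/-- qualitative pole control on the first component, in `SmoothRed` form -/
theorem pc1_triv
    (Q : Place (ResidueField ↥A) ↥(modularFunctionFieldFullC (ResidueField ↥A) M))
    (h1 : (R1triv hA hqM).O) (h2 : (smoothRedComap (R1triv hA hqM) (wq M q hq.out hqM)).O)
    (h12 : ((h1 : (R1triv hA hqM).O) : ↥(modularFunctionFieldBar (M * q))) =
      ((h2 : (smoothRedComap (R1triv hA hqM) (wq M q hq.out hqM)).O) :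
        ↥(modularFunctionFieldBar (M * q))))
    (hh : ∀ P : Place Kb ↥(modularFunctionFieldBar (M * q)),
      P.ord ((h1 : (R1triv hA hqM).O) : ↥(modularFunctionFieldBar (M * q))) < 0 →
      spA hA hqM HM P ≠ Q) : 0 ≤ Q.ord ((R1triv hA hqM).red h1) := by
  have hV₂ : ((h1 : (R1triv hA hqM).O) : ↥(modularFunctionFieldBar (M * q))) ∈
      (R1triv hA hqM).O.comap ((wq M q hq.out hqM :
        ↥(modularFunctionFieldBar (M * q)) ≃ₐ[Kb] ↥(modularFunctionFieldBar (M * q))) :
        ↥(modularFunctionFieldBar (M * q)) →+* ↥(modularFunctionFieldBar (M * q))) := by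
    rw [h12]
    exact h2.2
  exact Fermat.Agent.S34.PcgX0.pc1_X0 hqM hA (HX hA hqM HM) (isIntegral_alpha hqM)
    (redOneOfBranch (R := redDatum (HX hA hqM HM)) (B1X0 hA hqM) (hα hA hqM) (hredα hA hqM)
      (hβ hA hqM)) (isExt₁ hA hqM) (isExt_comap hA hqM) Q h1 hV₂ hh

set_option maxHeartbeats 1600000 in
/-- qualitative pole control on the first component, in Gauss-datum form -/
theorem pcA (Q : Place (ResidueField ↥A) ↥(modularFunctionFieldFullC (ResidueField ↥A) M))
    (h : ↥(modularFunctionFieldBar (M * q))) (h₁ : h ∈ (G1X0 hA hqM).O)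
    (h₂ : h ∈ (G2X0 hA hqM).O)
    (hh : ∀ P : Place Kb ↥(modularFunctionFieldBar (M * q)), P.ord h < 0 →
      spA hA hqM HM P ≠ Q) :
    0 ≤ Q.ord ((G1X0 hA hqM).red ⟨h, h₁⟩) :=
  pc1_triv hA hqM HM Q ⟨h, h₁⟩ ⟨h, h₂⟩ rfl hh

set_option maxHeartbeats 1600000 in
/-- qualitative pole control on the second component, in Gauss-datum form -/
theorem pcB (Q : Place (ResidueField ↥A) ↥(modularFunctionFieldFullC (ResidueField ↥A) M))
    (h : ↥(modularFunctionFieldBar (M * q))) (h₂ : h ∈ (G2X0 hA hqM).O)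
    (h₁ : h ∈ (G1X0 hA hqM).O)
    (hh : ∀ P : Place Kb ↥(modularFunctionFieldBar (M * q)), P.ord h < 0 →
      spB hA hqM HM P ≠ Q) :
    0 ≤ Q.ord ((G2X0 hA hqM).red ⟨h, h₂⟩) :=
  Fermat.Agent.S34.PcgSwap.pc2_of_swap (placeMap (HX hA hqM HM)) (heckeAlphaBar Kb M q)
    (heckeBetaBar Kb M q) (isIntegral_alpha hqM) (isIntegral_beta M q) (wq M q hq.out hqM)
    (fun g => wq_beta hq.out hqM g) (fun x => wq_wq hq.out hqM x) (R1triv hA hqM)
    (pc1_triv hA hqM HM) Q ⟨h, h₁⟩ ⟨h, h₂⟩ rfl hh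

/-! ### specialisation of the poles and zeros of `j`, `j_q` -/

include hA in
theorem spA_pole (P : Place Kb ↥(modularFunctionFieldBar (M * q)))
    (hP : P.ord (jgen (M * q)) < 0) :
    (spA hA hqM HM P).ord (jk (ResidueField ↥A) M) < 0 := by
  refine pole_to_pole_jgen hA hqM (HX hA hqM HM) _ ?_
  have h := (restrAlong (heckeAlphaBar Kb M q) (isIntegral_alpha hqM)).ord_map P (jgen M)
  have he := (restrAlong (heckeAlphaBar Kb M q) (isIntegral_alpha hqM)).e_pos P
  rw [restrAlong_res] at h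
  change P.ord (heckeAlphaBar Kb M q (jgen M)) = _ at h
  rw [alpha_jgen] at h
  rw [h] at hP
  have he' : (0 : ℤ) < ((restrAlong (heckeAlphaBar Kb M q) (isIntegral_alpha hqM)).e P : ℤ) := by
    exact_mod_cast he
  by_contra hcon
  push Not at hcon
  have := mul_nonneg he'.le hcon
  omega

include hA in
theorem spA_zero (P : Place Kb ↥(modularFunctionFieldBar (M * q)))
    (hP : 0 < P.ord (jgen (M * q))) :
    0 < (spA hA hqM HM P).ord (jk (ResidueField ↥A) M) := by
  refine zero_to_zero_jgen hA hqM (HX hA hqM HM) _ ?_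
  have h := (restrAlong (heckeAlphaBar Kb M q) (isIntegral_alpha hqM)).ord_map P (jgen M)
  have he := (restrAlong (heckeAlphaBar Kb M q) (isIntegral_alpha hqM)).e_pos P
  rw [restrAlong_res] at h
  change P.ord (heckeAlphaBar Kb M q (jgen M)) = _ at h
  rw [alpha_jgen] at h
  rw [h] at hP
  have he' : (0 : ℤ) < ((restrAlong (heckeAlphaBar Kb M q) (isIntegral_alpha hqM)).e P : ℤ) := by
    exact_mod_cast he
  by_contra hcon
  push Not at hcon
  have := mul_nonpos_of_nonneg_of_nonpos he'.le hcon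
  omega

include hA in
theorem spB_pole (P : Place Kb ↥(modularFunctionFieldBar (M * q)))
    (hP : P.ord (jl M q) < 0) :
    (spB hA hqM HM P).ord (jk (ResidueField ↥A) M) < 0 := by
  refine pole_to_pole_jgen hA hqM (HX hA hqM HM) _ ?_
  have h := (restrAlong (heckeBetaBar Kb M q) (isIntegral_beta M q)).ord_map P (jgen M)
  have he := (restrAlong (heckeBetaBar Kb M q) (isIntegral_beta M q)).e_pos P
  rw [restrAlong_res] at h
  change P.ord (jl M q) = _ at h
  rw [h] at hP
  have he' : (0 : ℤ) < ((restrAlong (heckeBetaBar Kb M q) (isIntegral_beta M q)).e P : ℤ) := by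
    exact_mod_cast he
  by_contra hcon
  push Not at hcon
  have := mul_nonneg he'.le hcon
  omega

include hA in
theorem spB_zero (P : Place Kb ↥(modularFunctionFieldBar (M * q)))
    (hP : 0 < P.ord (jl M q)) :
    0 < (spB hA hqM HM P).ord (jk (ResidueField ↥A) M) := by
  refine zero_to_zero_jgen hA hqM (HX hA hqM HM) _ ?_
  have h := (restrAlong (heckeBetaBar Kb M q) (isIntegral_beta M q)).ord_map P (jgen M)
  have he := (restrAlong (heckeBetaBar Kb M q) (isIntegral_beta M q)).e_pos P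
  rw [restrAlong_res] at h
  change P.ord (jl M q) = _ at h
  rw [h] at hP
  have he' : (0 : ℤ) < ((restrAlong (heckeBetaBar Kb M q) (isIntegral_beta M q)).e P : ℤ) := by
    exact_mod_cast he
  by_contra hcon
  push Not at hcon
  have := mul_nonpos_of_nonneg_of_nonpos he'.le hcon
  omega

/-! ### the reductions of `j` and `j_q` -/

/-- the dictionary of `EulerClosedX0` gives `PairRed` -/
theorem pairRedX0 : PairRed (G1X0 hA hqM) (G2X0 hA hqM) :=
  haveI : PerfectField (ResidueField ↥A) := inferInstance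
  Fermat.Agent.S34.EulerNodesX0.pairRed_of_dict hqM hA (dX0 hA hqM)

theorem jk_ne_zero : jk (ResidueField ↥A) M ≠ 0 :=
  (Fermat.Agent.S18.B.FkBasics.isFF (ResidueField ↥A) M).ne_zero

/-! ### quantitative pole control on the two components -/

set_option maxHeartbeats 1600000 in
/-- **pole control on the first component**: `red₁ (L(d D) ∩ O₁ ∩ O₂) ⊆ L(d (q+1) (j̄)_∞)` -/
theorem red₁_mem_rr {d : ℕ} {f : ↥(modularFunctionFieldBar (M * q))}
    (hf : f ∈ riemannRochSpace (d • D hqM)) (hf₁ : f ∈ (G1X0 hA hqM).O)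
    (hf₂ : f ∈ (G2X0 hA hqM).O) :
    (G1X0 hA hqM).red ⟨f, hf₁⟩ ∈ riemannRochSpace (d • ((q + 1) • EkA A M)) := by
  obtain ⟨gM, HM⟩ := Fermat.Agent.S18.A.RiemannFk.exists_riemannHyp_Fk' (ResidueField ↥A) M
    (Fermat.Agent.S18.B.SeparableFk.isSeparable_jk (ResidueField ↥A) M)
  have hP := pairRedX0 hA hqM
  have hr : (G1X0 hA hqM).red ⟨jgen (M * q), hP.j_mem₁⟩ = jk (ResidueField ↥A) M := hP.red₁_j
  have hr2 : (G2X0 hA hqM).red ⟨jgen (M * q), hP.j_mem₂⟩ = jk (ResidueField ↥A) M ^ q :=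
    hP.red₂_j
  refine Fermat.Agent.S36.EulerExact.Count.red_mem_rr_of_pc (G1X0 hA hqM) (G2X0 hA hqM).O
    (spA hA hqM HM) (fun Q h h₁ h₂ hh => pcA hA hqM HM Q h h₁ h₂ hh)
    (jgen_ne_zero (M * q)) hP.j_mem₁
    (inv_mem_of_red_ne_zero _ hP.j_mem₁ (by rw [hr]; exact jk_ne_zero))
    (inv_mem_of_red_ne_zero _ hP.j_mem₂ (by rw [hr2]; exact pow_ne_zero _ jk_ne_zero))
    (fun P hPo => by rw [hr]; exact spA_pole hA hqM HM P hPo)
    (fun P hPo => by rw [hr]; exact spA_zero hA hqM HM P hPo)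
    (n := q + 1) (D_le_alpha hqM) ?_ hf hf₁ hf₂
  rw [hr]
  exact isPoleDiv_jk_pow_A (q + 1)

set_option maxHeartbeats 1600000 in
/-- **pole control on the second component**: `red₂ (L(d D) ∩ O₁ ∩ O₂) ⊆ L(d (q+1) (j̄)_∞)` -/
theorem red₂_mem_rr {d : ℕ} {f : ↥(modularFunctionFieldBar (M * q))}
    (hf : f ∈ riemannRochSpace (d • D hqM)) (hf₁ : f ∈ (G1X0 hA hqM).O)
    (hf₂ : f ∈ (G2X0 hA hqM).O) :
    (G2X0 hA hqM).red ⟨f, hf₂⟩ ∈ riemannRochSpace (d • ((q + 1) • EkA A M)) := by
  obtain ⟨gM, HM⟩ := Fermat.Agent.S18.A.RiemannFk.exists_riemannHyp_Fk' (ResidueField ↥A) M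
    (Fermat.Agent.S18.B.SeparableFk.isSeparable_jk (ResidueField ↥A) M)
  have hP := pairRedX0 hA hqM
  have hr : (G2X0 hA hqM).red ⟨jl M q, hP.jl_mem₂⟩ = jk (ResidueField ↥A) M := hP.red₂_jl
  have hr1 : (G1X0 hA hqM).red ⟨jl M q, hP.jl_mem₁⟩ = jk (ResidueField ↥A) M ^ q :=
    hP.red₁_jl
  refine Fermat.Agent.S36.EulerExact.Count.red_mem_rr_of_pc (G2X0 hA hqM) (G1X0 hA hqM).O
    (spB hA hqM HM) (fun Q h h₂ h₁ hh => pcB hA hqM HM Q h h₂ h₁ hh)
    jl_ne_zero hP.jl_mem₂
    (inv_mem_of_red_ne_zero _ hP.jl_mem₂ (by rw [hr]; exact jk_ne_zero))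
    (inv_mem_of_red_ne_zero _ hP.jl_mem₁ (by rw [hr1]; exact pow_ne_zero _ jk_ne_zero))
    (fun P hPo => by rw [hr]; exact spB_pole hA hqM HM P hPo)
    (fun P hPo => by rw [hr]; exact spB_zero hA hqM HM P hPo)
    (n := q + 1) (D_le_beta hqM) ?_ hf hf₂ hf₁
  rw [hr]
  exact isPoleDiv_jk_pow_A (q + 1)

/-! ### full rank of the reduction: `OrthoPairX0` -/

attribute [local instance] Fermat.Agent.S34.OrthoPairX0.isScalarTowerFE

/-- the pair datum of `OrthoPairTwoExt` made of the two Gauss data of `EulerClosedX0` -/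
def pairX0 : Fermat.Agent.S34.OrthoPairTwoExt.Pair (gaussDatum M A hA hqM) (setupX0 hA hqM)
    ↥(modularFunctionFieldFullC (ResidueField ↥A) M)
    ↥(modularFunctionFieldFullC (ResidueField ↥A) M) where
  V₁ := (G1X0 hA hqM).O
  V₂ := (G2X0 hA hqM).O
  h₁ := isExt₁ hA hqM
  h₂ := isExt_comap hA hqM
  ρ₁ := (G1X0 hA hqM).red
  ρ₂ := (G2X0 hA hqM).red
  ker₁ := fun y => by
    rw [(G1X0 hA hqM).red_eq_zero_iff, ValuationSubring.coe_mem_nonunits_iff,
      IsLocalRing.mem_maximalIdeal, mem_nonunits_iff]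
  ker₂ := fun y => by
    rw [(G2X0 hA hqM).red_eq_zero_iff, ValuationSubring.coe_mem_nonunits_iff,
      IsLocalRing.mem_maximalIdeal, mem_nonunits_iff]
  const₁ := fun a y hy => by
    have : y = ⟨algebraMap Kb ↥(modularFunctionFieldBar (M * q)) (a : Kb),
        (G1X0 hA hqM).algebraMap_mem a⟩ := Subtype.ext hy
    rw [this]
    exact (G1X0 hA hqM).red_algebraMap a
  const₂ := fun a y hy => by
    have : y = ⟨algebraMap Kb ↥(modularFunctionFieldBar (M * q)) (a : Kb),
        (G2X0 hA hqM).algebraMap_mem a⟩ := Subtype.ext hy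
    rw [this]
    exact (G2X0 hA hqM).red_algebraMap a

set_option maxHeartbeats 1600000 in
/-- **full rank**: `ℓ(d D) ≤ dim red (L(d D) ∩ O₁ ∩ O₂)` -/
theorem ell_le_finrank_W {g : ℕ} (HL : RiemannHyp Kb ↥(modularFunctionFieldBar (M * q)) g)
    (d : ℕ) :
    ell (d • D hqM) ≤
      Module.finrank (ResidueField ↥A) (W (G1X0 hA hqM) (G2X0 hA hqM) (D hqM) d) := by
  haveI := HL.finite (d • D hqM)
  haveI := finite_W (G1X0 hA hqM) (G2X0 hA hqM) HL.finite (D hqM) d
  exact Fermat.Agent.S34.OrthoPairX0.finrank_le hA hqM (pairX0 hA hqM)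
    (riemannRochSpace (d • D hqM)) (W (G1X0 hA hqM) (G2X0 hA hqM) (D hqM) d)
    (fun f hf => ⟨(f : ↥(modularFunctionFieldBar (M * q))),
      (((pairX0 hA hqM).mem_R_iff _).mp f.2).1, (((pairX0 hA hqM).mem_R_iff _).mp f.2).2, hf, rfl⟩)

/-! ### the count -/

/-- a function of `L(d (q+1) (j̄)_∞)` is regular off the cusps -/
theorem mem_regOff_of_mem_rr {d : ℕ} {y : ↥(modularFunctionFieldFullC (ResidueField ↥A) M)}
    (hy : y ∈ riemannRochSpace (d • ((q + 1) • EkA A M))) :
    y ∈ regOff (P0 (ResidueField ↥A) M) := by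
  intro v hv
  have hv' : 0 ≤ v.ord (jk (ResidueField ↥A) M) := not_lt.mp hv
  rw [v.adicValuation_le_one_iff]
  rcases (mem_riemannRochSpace_iff.mp hy) v with h | h
  · exact Or.inl h
  · right
    rw [Finsupp.smul_apply, smul_EkA_apply_eq_zero (q + 1) v hv', smul_zero] at h
    omega

include HM in
set_option maxHeartbeats 1600000 in
/-- **THE UPPER BOUND FOR THE NUMBER OF NODES OF `X₀(M q)` MOD `q`**: any finite set `S` of
places of `κ_M` off the cusps at which (`Fr b` on the first component, `b` on the second) the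
reductions of the functions of `O₁ ∩ O₂` with poles at the cusps are glued has
`#S + 2 g(M) ≤ g(M q) + 1`. -/
theorem card_nodes_le {g : ℕ} (HL : RiemannHyp Kb ↥(modularFunctionFieldBar (M * q)) g)
    (S : Finset (Place (ResidueField ↥A) ↥(modularFunctionFieldFullC (ResidueField ↥A) M)))
    (hS : ∀ b ∈ S, b ∉ P0 (ResidueField ↥A) M)
    (hbS : ∀ h₁ h₂ : ↥(modularFunctionFieldFullC (ResidueField ↥A) M),
      h₁ ∈ regOff (P0 (ResidueField ↥A) M) → h₂ ∈ regOff (P0 (ResidueField ↥A) M) →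
      (h₁, h₂) ∈ Rbar0 (G1X0 hA hqM) (G2X0 hA hqM) (isPoleDiv_xE hqM).nonneg →
        ∀ b ∈ S, ∃ c : ResidueField ↥A,
          HasValue (Fr (ResidueField ↥A) M q b) h₁ c ∧ HasValue b h₂ c) :
    (S.card : ℤ) + gM + gM ≤ g + 1 := by
  classical
  set s₁ : ↥S → Place (ResidueField ↥A) ↥(modularFunctionFieldFullC (ResidueField ↥A) M) :=
    fun b => Fr (ResidueField ↥A) M q b.1 with hs₁def
  set s₂ : ↥S → Place (ResidueField ↥A) ↥(modularFunctionFieldFullC (ResidueField ↥A) M) :=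
    fun b => b.1 with hs₂def
  have hinj : Function.Injective s₁ :=
    fun a b h => Subtype.ext ((Fr (ResidueField ↥A) M q).injective h)
  have hs₂ : ∀ i, 0 ≤ (s₂ i).ord (jk (ResidueField ↥A) M) := fun i => not_lt.mp (hS i.1 i.2)
  have hs₁ : ∀ i, 0 ≤ (s₁ i).ord (jk (ResidueField ↥A) M) := fun i =>
    not_lt.mp fun h => hS i.1 i.2 ((Fr_mem_P0_iff (ResidueField ↥A) M q i.1).mp h)
  have hpos : 0 < Divisor.degree ((q + 1) • EkA A M) := by
    rw [map_nsmul]
    exact nsmul_pos (degree_EkA_pos (A := A) (M := M)) (Nat.succ_ne_zero q)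
  have key := Fermat.Agent.S36.EulerExact.Count.card_add_genus_le HL HM HM s₁ s₂ hinj
    (E₁ := (q + 1) • EkA A M) (E₂ := (q + 1) • EkA A M)
    (fun i => smul_EkA_apply_eq_zero _ _ (hs₁ i)) (fun i => smul_EkA_apply_eq_zero _ _ (hs₂ i))
    hpos hpos (D hqM) (degree_D_eq hqM hA) (W (G1X0 hA hqM) (G2X0 hA hqM) (D hqM)) ?_
    (ell_le_finrank_W hA hqM HL)
  · rwa [Fintype.card_coe] at key
  · intro d p hp
    obtain ⟨f, h₁, h₂, hf, rfl⟩ := hp
    have m1 := red₁_mem_rr hA hqM hf h₁ h₂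
    have m2 := red₂_mem_rr hA hqM hf h₁ h₂
    refine ⟨m1, m2, fun i => ?_⟩
    exact hbS _ _ (mem_regOff_of_mem_rr m1) (mem_regOff_of_mem_rr m2) ⟨d, f, h₁, h₂, hf, rfl⟩
      i.1 i.2

include HM in
set_option maxHeartbeats 1600000 in
/-- **The nodes of `X₀(M q)` mod `q` with the EXACT Euler identity**
`g(M q) + 1 = 2 g(M) + #S` (`EulerClosedX0.exists_nodes_closed` + `card_nodes_le`). -/
theorem exists_nodes_closed_eq {g : ℕ}
    (HL : RiemannHyp Kb ↥(modularFunctionFieldBar (M * q)) g) :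
    ∃ S : Finset (Place (ResidueField ↥A) ↥(modularFunctionFieldFullC (ResidueField ↥A) M)),
      (∀ b ∈ S, Fr (ResidueField ↥A) M q (Fr (ResidueField ↥A) M q b) = b ∧
        b ∉ P0 (ResidueField ↥A) M) ∧
      (g : ℤ) + 1 = gM + gM + S.card ∧
      ∀ h₁ h₂ : ↥(modularFunctionFieldFullC (ResidueField ↥A) M),
        h₁ ∈ regOff (P0 (ResidueField ↥A) M) → h₂ ∈ regOff (P0 (ResidueField ↥A) M) →
        ((h₁, h₂) ∈ Rbar0 (G1X0 hA hqM) (G2X0 hA hqM) (isPoleDiv_xE hqM).nonneg ↔
          ∀ b ∈ S, ∃ c : ResidueField ↥A,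
            HasValue (Fr (ResidueField ↥A) M q b) h₁ c ∧ HasValue b h₂ c) := by
  haveI : PerfectField (ResidueField ↥A) := inferInstance
  obtain ⟨S, hS, hNC, hbS⟩ := exists_nodes_closed hA hqM HL HM
  refine ⟨S, hS, le_antisymm hNC ?_, hbS⟩
  have := card_nodes_le hA hqM HM HL S (fun b hb => (hS b hb).2)
    (fun h₁ h₂ r₁ r₂ hm => (hbS h₁ h₂ r₁ r₂).mp hm)
  linarith

end Main

end Fermat.Agent.S36.EulerExact.X0
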