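import Mathlib
import Fermat.Agent.S36.EulerExact.X0
import Fermat.Agent.S36.NodesDesc

/-!
# PROJECT V (S36), slice V-EulerExact, file 3: the exact Euler identity FOR EVERY `S` DESCRIBING
`Rbar0`

`EulerExact.X0.exists_nodes_closed_eq` produces ONE node set `S` with
`g(M q) + 1 = 2 g(M) + #S`; `NodesDesc.eq_of_desc` says that the description of `Rbar0`
determines `S`.  Hence the identity holds for every finite set `S` of places off the cusps with
`NodesDesc.Desc hA hqM S` - in particular for `Y.S` of `NodesDesc.exists_nodes_desc`, the set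
every consumer of PROJECT V shares:

* `card_eq_of_desc` : `Desc hA hqM S → (g : ℤ) + 1 = gM + gM + S.card`;
* `card_eq_of_desc_nat` : the same in `ℕ` = LITERALLY the hypothesis `hid` of
  `CountX0.two_mul_card_le` / `CountX0.count_X0` / `CountNumerics.two_mul_card_eq_int`;
* `not_mem_P0_iff_ord_nonneg`, `not_mem_P0_iff_not_mem_poles` : the three spellings of
  "`b` is not a cusp" (`b ∉ P0`, `0 ≤ b.ord J̄`, `b ∉ FibreSep.poles`).
-/

set_option autoImplicit false
set_option linter.unusedSectionVars false
set_option linter.style.haveILetI false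
set_option synthInstance.maxHeartbeats 400000

noncomputable section

namespace Fermat.Agent.S36.EulerExact.Desc

open ModularCurve AlgebraicCurve IsLocalRing IntermediateField
open Fermat.Agent.S18.B.FkBasics (jk isFF)
open Fermat.Agent.S18.NonSpecial
open Fermat.Agent.S34.Euler.FrobSide
open Fermat.Agent.S18.A

local notation "Kb" => AlgebraicClosure ℚ

attribute [local instance 2000] Fermat.Agent.S34.EulerX0.algResFk

/-- shortcut instances (all propositions) -/
local instance instACkDesc (A : ValuationSubring Kb) : IsAlgClosed (ResidueField ↥A) :=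
  Fermat.Agent.S18.ResidueBasics.isAlgClosed_residueField A

local instance instNeZeroMulDesc (M q : ℕ) [NeZero M] [NeZero q] : NeZero (M * q) :=
  ⟨Nat.mul_ne_zero (NeZero.ne M) (NeZero.ne q)⟩

variable {q : ℕ} [hq : Fact q.Prime] [NeZero q] {M : ℕ} [NeZero M]
variable {A : ValuationSubring Kb} (hA : A.LiesOverPrime q) (hqM : ¬ q ∣ M)
variable [CharP (ResidueField ↥A) q] [PerfectField (ResidueField ↥A)]
variable {gM : ℕ}
  (HM : RiemannHyp (ResidueField ↥A) ↥(modularFunctionFieldFullC (ResidueField ↥A) M) gM)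
variable {g : ℕ} (HL : RiemannHyp Kb ↥(modularFunctionFieldBar (M * q)) g)

include HM HL in
/-- **the exact Euler identity for every `S` describing `Rbar0`**: `g(M q) + 1 = 2 g(M) + #S` -/
theorem card_eq_of_desc
    {S : Finset (Place (ResidueField ↥A) ↥(modularFunctionFieldFullC (ResidueField ↥A) M))}
    (hS : ∀ b ∈ S, b ∉ P0 (ResidueField ↥A) M)
    (hd : Fermat.Agent.S36.NodesDesc.Desc hA hqM S) :
    (g : ℤ) + 1 = gM + gM + S.card := by
  obtain ⟨S', hS', hid, hd'⟩ := Fermat.Agent.S36.EulerExact.X0.exists_nodes_closed_eq hA hqM HM HL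
  have e : S = S' :=
    Fermat.Agent.S36.NodesDesc.eq_of_desc HM hS (fun b hb => (hS' b hb).2) hd hd'
  rw [e]
  exact hid

include HM HL in
/-- natural-number form of `card_eq_of_desc` (the `hid` of `CountX0.count_X0`) -/
theorem card_eq_of_desc_nat
    {S : Finset (Place (ResidueField ↥A) ↥(modularFunctionFieldFullC (ResidueField ↥A) M))}
    (hS : ∀ b ∈ S, b ∉ P0 (ResidueField ↥A) M)
    (hd : Fermat.Agent.S36.NodesDesc.Desc hA hqM S) :
    g + 1 = gM + gM + S.card := by
  have := card_eq_of_desc hA hqM HM HL hS hd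
  exact_mod_cast this

/-- `b ∉ P0` iff `0 ≤ ord_b J̄` -/
theorem not_mem_P0_iff_ord_nonneg
    (b : Place (ResidueField ↥A) ↥(modularFunctionFieldFullC (ResidueField ↥A) M)) :
    b ∉ P0 (ResidueField ↥A) M ↔ 0 ≤ b.ord (jk (ResidueField ↥A) M) := by
  rw [mem_P0, not_lt]

/-- a place is off the cusps (`∉ P0`) iff it is not a pole of `J̄` in the sense of `FibreSep` -/
theorem not_mem_P0_iff_not_mem_poles
    (hsep : Algebra.IsSeparable (ResidueField ↥A)⟮jk (ResidueField ↥A) M⟯
      ↥(modularFunctionFieldFullC (ResidueField ↥A) M))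
    (b : Place (ResidueField ↥A) ↥(modularFunctionFieldFullC (ResidueField ↥A) M)) :
    b ∉ P0 (ResidueField ↥A) M ↔ b ∉ FibreSep.poles (isFF (ResidueField ↥A) M) hsep := by
  rw [FibreSep.mem_poles_iff_ord_neg, mem_P0]

end Fermat.Agent.S36.EulerExact.Desc
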